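import Fermat.Agent.S14.Thaine.Defs

/-!
# Route T: the Galois action on the class group, computed on integral ideals
(shared lemma file; statements FROZEN by helper13; may be imported by every Route T block)
-/

set_option autoImplicit false

namespace Fermat.Agent.S14.Thaine

open NumberField
open scoped nonZeroDivisors

/-- The image `σ(I)` of a nonzero integral ideal, as a nonzero integral ideal. -/
noncomputable def sigmaIdeal (K : Type*) [Field K] [NumberField K] (σ : K ≃ₐ[ℚ] K)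
    (I : (Ideal (𝓞 K))⁰) : (Ideal (𝓞 K))⁰ :=
  ⟨Ideal.map (RingOfIntegers.mapRingEquiv (σ : K ≃+* K)) (I : Ideal (𝓞 K)), by
    have hI : (I : Ideal (𝓞 K)) ≠ ⊥ := nonZeroDivisors.coe_ne_zero I
    refine mem_nonZeroDivisors_of_ne_zero ?_
    intro h
    apply hI
    have := (Ideal.map_eq_bot_iff_of_injective
      (RingOfIntegers.mapRingEquiv (σ : K ≃+* K)).injective).mp h
    exact this⟩

theorem coe_sigmaIdeal (K : Type*) [Field K] [NumberField K] (σ : K ≃ₐ[ℚ] K)
    (I : (Ideal (𝓞 K))⁰) :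
    (sigmaIdeal K σ I : Ideal (𝓞 K)) =
      Ideal.map (RingOfIntegers.mapRingEquiv (σ : K ≃+* K)) (I : Ideal (𝓞 K)) := rfl

/-- `x ∈ σ(I) ↔ σ⁻¹ x ∈ I`. -/
theorem mem_sigmaIdeal_iff (K : Type*) [Field K] [NumberField K] (σ : K ≃ₐ[ℚ] K)
    (I : (Ideal (𝓞 K))⁰) (x : 𝓞 K) :
    x ∈ (sigmaIdeal K σ I : Ideal (𝓞 K)) ↔
      (RingOfIntegers.mapRingEquiv (σ : K ≃+* K)).symm x ∈ (I : Ideal (𝓞 K)) := by
  rw [coe_sigmaIdeal, Ideal.mem_map_of_equiv]
  constructor
  · rintro ⟨y, hy, rfl⟩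
    rwa [RingEquiv.symm_apply_apply]
  · intro h
    exact ⟨_, h, RingEquiv.apply_symm_apply _ _⟩

/-- General form: `ClassGroup.mulEquiv g` sends the class of `I` to the class of `g(I)`. -/
theorem clSigma_mk0_aux {R R' : Type*} [CommRing R] [IsDedekindDomain R]
    [CommRing R'] [IsDedekindDomain R'] (g : R ≃+* R')
    (I : (Ideal R)⁰) (J : (Ideal R')⁰) (hJ : (J : Ideal R') = Ideal.map g (I : Ideal R)) :
    ClassGroup.mulEquiv g (ClassGroup.mk0 I) = ClassGroup.mk0 J := by
  have key : Units.mapEquiv (FractionalIdeal.ringEquivOfRingEquiv (FractionRing R)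
      (FractionRing R') g).toMulEquiv (FractionalIdeal.mk0 (FractionRing R) I) =
      FractionalIdeal.mk0 (FractionRing R') J := by
    apply Units.ext
    simp only [Units.coe_mapEquiv, FractionalIdeal.coe_mk0]
    rw [RingEquiv.toMulEquiv_eq_coe, RingEquiv.coe_toMulEquiv, hJ]
    ext x
    rw [FractionalIdeal.mem_coeIdeal, ← FractionalIdeal.mem_coe,
      FractionalIdeal.ringEquivOfRingEquiv_apply]
    simp only [FractionalIdeal.coe_mk, Submodule.mem_map, FractionalIdeal.val_eq_coe,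
      FractionalIdeal.mem_coe, FractionalIdeal.mem_coeIdeal, Ideal.mem_map_of_equiv]
    constructor
    · rintro ⟨_, ⟨y, hy, rfl⟩, rfl⟩
      exact ⟨g y, ⟨y, hy, rfl⟩,
        (IsFractionRing.semilinearEquivOfRingEquiv_algebraMap _ _ g y).symm⟩
    · rintro ⟨_, ⟨y, hy, rfl⟩, rfl⟩
      exact ⟨algebraMap R (FractionRing R) y, ⟨y, hy, rfl⟩,
        IsFractionRing.semilinearEquivOfRingEquiv_algebraMap _ _ g y⟩
  rw [← (ClassGroup.equiv (FractionRing R')).injective.eq_iff]
  simp only [ClassGroup.mulEquiv, MulEquiv.trans_apply, MulEquiv.apply_symm_apply,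
    ClassGroup.equiv_mk0]
  exact congrArg (QuotientGroup.mk' (toPrincipalIdeal R' (FractionRing R')).range) key

/-- The class of `σ(I)` is `clSigma σ` of the class of `I`. -/
theorem clSigma_mk0 (K : Type*) [Field K] [NumberField K] (σ : K ≃ₐ[ℚ] K)
    (I : (Ideal (𝓞 K))⁰) :
    clSigma K σ (ClassGroup.mk0 I) = ClassGroup.mk0 (sigmaIdeal K σ I) :=
  clSigma_mk0_aux _ I _ (coe_sigmaIdeal K σ I)

end Fermat.Agent.S14.Thaine
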