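import Fermat.Agent.S14.Defs

/-!
# S14, Route T (Thaine's method): shared definitions (FROZEN; owner helper13)

`K = ℚ(ζ_p)`.  Notation used in the docstrings: `Δ = Gal(K/ℚ)`, `σ_a ζ = ζ ^ a`.
-/

set_option autoImplicit false

namespace Fermat.Agent.S14.Thaine

open NumberField
open scoped nonZeroDivisors

section Cyclo

variable (p : ℕ) [Fact p.Prime] (K : Type*) [Field K] [NumberField K]
  [IsCyclotomicExtension {p} ℚ K]

/-- The mod `p` cyclotomic character of `Gal(K/ℚ)` as an element of `ZMod p`: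
`σ x = x ^ (chi p K σ).val` for every `x : K` with `x ^ p = 1`
(Mathlib: `IsCyclotomicExtension.Rat.galEquivZMod_apply_of_pow_eq`). -/
noncomputable def chi (σ : K ≃ₐ[ℚ] K) : ZMod p :=
  ((IsCyclotomicExtension.Rat.galEquivZMod p K σ : (ZMod p)ˣ) : ZMod p)

/-- The exponent `a² mod p` (as a natural number `< p`) attached to `σ = σ_a`. -/
noncomputable def sqExp (σ : K ≃ₐ[ℚ] K) : ℕ := ((chi p K σ) ^ 2).val

/-- The fixed primitive `p`-th root of unity of `K`, as an algebraic integer. -/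
noncomputable def zetaInt : 𝓞 K := (IsCyclotomicExtension.zeta_spec p ℚ K).toInteger

/-- Thaine's cyclotomic `p`-unit in the `ω²`-eigenspace:
`u = ∏_{0<j<p} (1 - ζ^j) ^ e_j` with `e_j = (j ^ (p-3) mod p) ∈ [0, p)`.
(`σ_a u = u ^ (a²) * w ^ p` for some `w ∈ Kˣ`.) -/
noncomputable def thaineU : 𝓞 K :=
  ∏ j ∈ Finset.Ioo 0 p, (1 - zetaInt p K ^ j) ^ (((j : ZMod p)) ^ (p - 3)).val

end Cyclo

section General

variable (K : Type*) [Field K] [NumberField K]

/-- The action of a field automorphism on the ideal class group: the class of an integral ideal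
`I` is sent to the class of its image `σ(I)`. -/
noncomputable def clSigma (σ : K ≃ₐ[ℚ] K) : ClassGroup (𝓞 K) ≃* ClassGroup (𝓞 K) :=
  ClassGroup.mulEquiv (RingOfIntegers.mapRingEquiv (σ : K ≃+* K))

/-- "Good" primes for `u` (relative to the prime number `p`): prime ideals `P` of `𝓞 K` of prime
norm (degree one), not above `p`, modulo which `u` is not a `p`-th power. -/
def IsGoodPrime (p : ℕ) (u : 𝓞 K) (P : Ideal (𝓞 K)) : Prop :=
  P.IsPrime ∧ (Ideal.absNorm P).Prime ∧ ((p : ℕ) : 𝓞 K) ∉ P ∧ ¬ ∃ x : 𝓞 K, x ^ p - u ∈ P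

/-- A nonzero prime of `𝓞 K`, seen in the monoid of nonzero integral ideals. -/
noncomputable def primeNZD (v : IsDedekindDomain.HeightOneSpectrum (𝓞 K)) : (Ideal (𝓞 K))⁰ :=
  ⟨v.asIdeal, mem_nonZeroDivisors_of_ne_zero v.ne_bot⟩

/-- The partial zeta function of an ideal class: `∑_{I ∈ C} N(I)^(-s)` (integral nonzero `I`). -/
noncomputable def classZeta (C : ClassGroup (𝓞 K)) (s : ℝ) : ℝ :=
  ∑' I : {I : (Ideal (𝓞 K))⁰ // ClassGroup.mk0 I = C},
    ((Ideal.absNorm (I.1 : Ideal (𝓞 K)) : ℝ)) ^ (-s)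

end General

section Cyclo

variable (p : ℕ) [Fact p.Prime] (K : Type*) [Field K] [NumberField K]
  [IsCyclotomicExtension {p} ℚ K]

/-- Thaine's operator `𝐄 = ∑_a a² σ_a⁻¹` acting on the class group (written multiplicatively):
`𝐄 c = ∏_σ (σ⁻¹ c) ^ (sqExp σ)`. -/
noncomputable def EOp : ClassGroup (𝓞 K) →* ClassGroup (𝓞 K) :=
  ∏ σ : K ≃ₐ[ℚ] K, (powMonoidHom (sqExp p K σ)).comp (clSigma K σ⁻¹).toMonoidHom

end Cyclo

end Fermat.Agent.S14.Thaine
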