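import Fermat.Agent.S14.Thaine.Iface.Generation
import Fermat.Agent.S14.Thaine.Iface.Relation
import Fermat.Agent.S14.Thaine.Iface.Units
import Fermat.Agent.S14.Thaine.Iface.Kummer
import Fermat.Agent.S14.Thaine.Glue.Group
import Fermat.Agent.S14.Thaine.Glue.Statements

/-!
# Route T: assembly of the arithmetic core from the interfaces (owner helper13)
-/

set_option autoImplicit false

namespace Fermat.Agent.S14.Thaine

open NumberField IsDedekindDomain
open scoped nonZeroDivisors

theorem arithmeticCore {p : ℕ} [Fact p.Prime] (h3 : 3 ≤ p) : ArithmeticCore p := by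
  intro K L _ _ _ _ _ _ _ _ hT
  have hpP : p.Prime := Fact.out
  obtain ⟨β₀, h0, hnp, heig, hval, hloc⟩ := exists_kummer_data h3 K L hT
  obtain ⟨β, I, hβ0, hI0, hI, hnp', heig', hloc'⟩ :=
    Glue.exists_integral_data β₀ h0 hnp heig hval hloc
  let I' : (Ideal (𝓞 K))⁰ := ⟨I, mem_nonZeroDivisors_of_ne_zero hI0⟩
  obtain ⟨hcp, hceig⟩ := Glue.class_eigen (p := p) β I' hI heig'
  -- Step A: the class of `I` is trivial
  have hc1 : ClassGroup.mk0 I' = 1 := by
    rcases Nat.lt_or_ge p 5 with h5 | h5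
    · have hp3 : p = 3 := by
        interval_cases p
        · rfl
        · exact absurd hpP (by decide)
      exact Glue.classGroup_trivial_of_three hp3 _
    · have hE := Glue.EOp_eq_inv (K := K) h3 (ClassGroup.mk0 I') hcp hceig
      have hζ := IsCyclotomicExtension.zeta_spec p ℚ K
      have hgen := goodPrimes_generate h3 K _ hζ (thaineU p K) (thaineU_not_pow h5 K)
      refine Glue.eq_one_of_endo hpP (EOp p K) _ hgen ?_ _ hcp hE
      rintro c ⟨P, hP, rfl⟩
      exact thaine_relation h3 K P hP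
  -- Step B: the unit case
  obtain ⟨ε, b, hb, hβ⟩ := Glue.exists_unit_mul_pow (p := p) β hβ0 I' hI hc1
  obtain ⟨𝔭, h𝔭, hp𝔭⟩ := Glue.exists_prime_above_p (p := p) (K := K)
  have hue := Glue.unit_eigen β ε b hb hβ heig'
  have hul := Glue.unit_local h3 𝔭 h𝔭 hp𝔭 β ε b hb hβ hloc'
  obtain ⟨w, hw⟩ := unit_step h3 K 𝔭 h𝔭 hp𝔭 ε hue hul
  apply hnp'
  refine ⟨((w : 𝓞 K) : K) * (b : K), ?_⟩
  rw [hβ, hw]
  push_cast
  ring
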